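/-
Project DS / cell DS-T, leaf [PK]: the mod-`n` cyclotomic character of `Gal(ℚ̄/ℚ)` (helper25).

* `dspk_cyc n : ds_G →* (ZMod n)ˣ` (Mathlib's `modularCyclotomicCharacter` on `ℚ̄`), `dspk_cyc_spec`,
  `dspk_cyc_eq_of`;
* `dspk_cyc_finiteLevel`; `dspk_cyc_frob` (`cyc(Frob_p) = p` for `p ∤ n`); `dspk_cyc_inertia`;
* `dspk_cyc_eps` : the character `ε = (ψ ∘ cyc_M) · (ι ∘ cyc_ℓ) : ds_G →* kˣ` with
  `ε(Frob_p) = ψ(p) p` and `ε = 1` on inertia at `p ∤ M ℓ` — the `ε`-input of `dspk_galois` for the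
  top statement `ds_SeamTcoh`.
-/
import Mathlib
import Fermat.Agent.DS.Defs
import Fermat.Agent.DS.HeckeG1.Coset
import Fermat.Agent.S55.CycloUnram
import Fermat.Agent.S55.LevelFields

set_option autoImplicit false
set_option linter.unusedSectionVars false
set_option linter.style.haveILetI false

noncomputable section

namespace Fermat.Agent.DS

open IsLocalRing

/-- Instance-path repair: the default `Algebra ℚ (AlgebraicClosure ℚ)` is the division-ring one. -/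
local instance dspk_cyc_qbarIsAlgebraic : Algebra.IsAlgebraic ℚ (AlgebraicClosure ℚ) :=
  AlgebraicClosure.isAlgebraic ℚ

/-! ### Roots of unity and valuation rings -/

section val

variable {L : Type*} [Field L] (A : ValuationSubring L)

/-- An `n`-th root of unity congruent to `1` modulo the maximal ideal of a valuation ring in which
`n` is a unit is `1`. -/
theorem dspk_cyc_eq_one_of_valuation_lt {n : ℕ} (hn : n ≠ 0) (hnA : ¬ A.valuation (n : L) < 1)
    {ω : L} (hω : ω ^ n = 1) (hlt : A.valuation (ω - 1) < 1) : ω = 1 := by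
  by_contra hne
  apply hnA
  have hωA : ω ∈ A := by
    rw [← ValuationSubring.valuation_le_one_iff,
      Fermat.Agent.S55.tl_valuation_eq_one_of_pow_eq_one A hn hω]
  -- the geometric sum vanishes
  have hgeom : ∑ i ∈ Finset.range n, ω ^ i = 0 := by
    have h1 : (∑ i ∈ Finset.range n, ω ^ i) * (ω - 1) = 0 := by
      rw [geom_sum_mul, hω, sub_self]
    exact (mul_eq_zero.1 h1).resolve_right (sub_ne_zero.2 hne)
  -- `n = - Σ (ω^i - 1)`
  have hn_eq : (n : L) = - ∑ i ∈ Finset.range n, (ω ^ i - 1) := by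
    rw [Finset.sum_sub_distrib, hgeom]
    simp
  rw [hn_eq, Valuation.map_neg]
  refine lt_of_le_of_lt (Valuation.map_sum_le _ (g := A.valuation (ω - 1)) fun i _ => ?_) hlt
  -- `ω^i - 1 = (Σ_{j<i} ω^j)(ω - 1)`
  rw [← geom_sum_mul, map_mul]
  have hsum : A.valuation (∑ j ∈ Finset.range i, ω ^ j) ≤ 1 := by
    rw [ValuationSubring.valuation_le_one_iff]
    exact sum_mem fun j _ => pow_mem hωA j
  calc A.valuation (∑ j ∈ Finset.range i, ω ^ j) * A.valuation (ω - 1)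
      ≤ 1 * A.valuation (ω - 1) := mul_le_mul_left hsum _
    _ = A.valuation (ω - 1) := one_mul _

/-- If `A` lies over `p` and `p ∤ n` then `n` is a unit of `A`. -/
theorem dspk_cyc_not_lt {p : ℕ} (hp : p.Prime) (hA : A.LiesOverPrime p) {n : ℕ} (hpn : ¬ p ∣ n) :
    ¬ A.valuation (n : L) < 1 := by
  intro h1
  have h2 : A.valuation (p : L) < 1 := (ValuationSubring.mem_nonunits_iff (A := A)).1 hA
  have hcop : Nat.Coprime n p := ((Nat.Prime.coprime_iff_not_dvd hp).2 hpn).symm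
  have hbez : (n : ℤ) * Nat.gcdA n p + (p : ℤ) * Nat.gcdB n p = 1 := by
    have := Nat.gcd_eq_gcd_ab n p
    rw [hcop.gcd_eq_one] at this
    exact_mod_cast this.symm
  have hL : (n : L) * ((Nat.gcdA n p : ℤ) : L) + (p : L) * ((Nat.gcdB n p : ℤ) : L) = 1 := by
    exact_mod_cast congrArg (Int.cast : ℤ → L) hbez
  have hint : ∀ z : ℤ, A.valuation (z : L) ≤ 1 := fun z => by
    rw [ValuationSubring.valuation_le_one_iff]
    exact intCast_mem A z
  have hlt : A.valuation ((n : L) * ((Nat.gcdA n p : ℤ) : L) + (p : L) * ((Nat.gcdB n p : ℤ) : L))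
      < 1 := by
    refine lt_of_le_of_lt (Valuation.map_add _ _ _) (max_lt ?_ ?_)
    · rw [map_mul]
      calc A.valuation (n : L) * A.valuation ((Nat.gcdA n p : ℤ) : L)
          ≤ A.valuation (n : L) * 1 := mul_le_mul_right (hint _) _
        _ = A.valuation (n : L) := mul_one _
        _ < 1 := h1
    · rw [map_mul]
      calc A.valuation (p : L) * A.valuation ((Nat.gcdB n p : ℤ) : L)
          ≤ A.valuation (p : L) * 1 := mul_le_mul_right (hint _) _
        _ = A.valuation (p : L) := mul_one _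
        _ < 1 := h2
  rw [hL, map_one] at hlt
  exact lt_irrefl _ hlt

end val

/-! ### The character -/

/-- The mod-`n` cyclotomic character of `Gal(ℚ̄/ℚ)`. -/
def dspk_cyc (n : ℕ) [NeZero n] : ds_G →* (ZMod n)ˣ :=
  (modularCyclotomicCharacter ds_Qb (HasEnoughRootsOfUnity.natCard_rootsOfUnity ds_Qb n)).comp
    (MulSemiringAction.toRingAut ds_G ds_Qb)

variable (n : ℕ) [NeZero n]

/-- The defining property. -/
theorem dspk_cyc_spec (σ : ds_G) {μ : ds_Qb} (hμ : μ ^ n = 1) :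
    σ μ = μ ^ ((dspk_cyc n σ : (ZMod n)ˣ) : ZMod n).val := by
  have hu : IsUnit μ := IsUnit.of_pow_eq_one hμ (NeZero.ne n)
  obtain ⟨u, rfl⟩ := hu
  have hmem : u ∈ rootsOfUnity n ds_Qb := by
    rw [mem_rootsOfUnity]
    exact Units.ext (by simpa using hμ)
  exact modularCyclotomicCharacter.spec ds_Qb
    (HasEnoughRootsOfUnity.natCard_rootsOfUnity ds_Qb n)
    (MulSemiringAction.toRingAut ds_G ds_Qb σ) hmem

/-- Uniqueness: if `σ` raises all `n`-th roots of unity to the power `a`, then `cyc σ = a`. -/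
theorem dspk_cyc_eq_of (σ : ds_G) (a : ℕ) (h : ∀ μ : ds_Qb, μ ^ n = 1 → σ μ = μ ^ a) :
    ((dspk_cyc n σ : (ZMod n)ˣ) : ZMod n) = (a : ZMod n) := by
  symm
  refine modularCyclotomicCharacter.unique ds_Qb
    (HasEnoughRootsOfUnity.natCard_rootsOfUnity ds_Qb n)
    (MulSemiringAction.toRingAut ds_G ds_Qb σ) (c := (a : ZMod n)) fun t ht => ?_
  have ht' : (t : ds_Qb) ^ n = 1 := by
    have := (mem_rootsOfUnity _ _).1 ht
    rw [← Units.val_pow_eq_pow_val, this, Units.val_one]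
  have h1 : σ (t : ds_Qb) = (t : ds_Qb) ^ a := h _ ht'
  rw [ZMod.val_natCast]
  show σ (t : ds_Qb) = (t : ds_Qb) ^ (a % n)
  rw [h1]
  exact pow_eq_pow_mod a ht'

/-- `cyc σ = 1` as soon as `σ` fixes the `n`-th roots of unity. -/
theorem dspk_cyc_eq_one_of (σ : ds_G) (h : ∀ μ : ds_Qb, μ ^ n = 1 → σ μ = μ) :
    dspk_cyc n σ = 1 := by
  apply Units.ext
  have := dspk_cyc_eq_of n σ 1 (fun μ hμ => by rw [pow_one]; exact h μ hμ)
  rw [this, Nat.cast_one, Units.val_one]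

/-- The cyclotomic character has finite level. -/
theorem dspk_cyc_finiteLevel : GaloisFactorsThroughFiniteLevel (dspk_cyc n) := by
  obtain ⟨ζ, hζ⟩ := HasEnoughRootsOfUnity.exists_primitiveRoot ds_Qb n
  refine ⟨IntermediateField.adjoin ℚ {ζ}, ?_, fun σ hσ => ?_⟩
  · exact IntermediateField.adjoin.finiteDimensional
      (Algebra.IsIntegral.isIntegral (R := ℚ) ζ)
  · refine dspk_cyc_eq_one_of n σ fun μ hμ => ?_
    obtain ⟨i, -, rfl⟩ := hζ.eq_pow_of_pow_eq_one hμ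
    have hζfix : σ ζ = ζ := hσ ζ (IntermediateField.mem_adjoin_simple_self ℚ ζ)
    rw [map_pow, hζfix]

/-- A Frobenius element at `p ∤ n` raises the `n`-th roots of unity to the power `p`. -/
theorem dspk_cyc_frob_root {p : ℕ} (hp : p.Prime) (hpn : ¬ p ∣ n)
    (A : ValuationSubring ds_Qb) (hA : A.LiesOverPrime p) (φ : ds_G) (hφ : A.IsFrobeniusAt φ p)
    {μ : ds_Qb} (hμ : μ ^ n = 1) : φ μ = μ ^ p := by
  have hn : n ≠ 0 := NeZero.ne n
  have hvμ : A.valuation μ = 1 :=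
    Fermat.Agent.S55.tl_valuation_eq_one_of_pow_eq_one A hn hμ
  have hμA : μ ∈ A := by rw [← ValuationSubring.valuation_le_one_iff, hvμ]
  have hμ0 : μ ≠ 0 := by
    intro h
    rw [h, zero_pow hn] at hμ
    exact zero_ne_one hμ
  have hcong : A.valuation (φ μ - μ ^ p) < 1 := by
    have h := hφ.smul_residue_eq (IsLocalRing.residue A ⟨μ, hμA⟩)
    rw [← IsLocalRing.ResidueField.residue_smul, ← map_pow] at h
    have h1 := Ideal.Quotient.eq.mp h
    rw [← ValuationSubring.coe_mem_nonunits_iff] at h1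
    exact (ValuationSubring.mem_nonunits_iff (A := A)).1 h1
  have hnA : ¬ A.valuation ((n : ℕ) : ds_Qb) < 1 := dspk_cyc_not_lt A hp hA hpn
  have hμp0 : μ ^ p ≠ 0 := pow_ne_zero _ hμ0
  have hω : (φ μ * (μ ^ p)⁻¹) ^ n = 1 := by
    rw [mul_pow, ← map_pow, hμ, map_one, one_mul, inv_pow, ← pow_mul, mul_comm, pow_mul, hμ,
      one_pow, inv_one]
  have hlt : A.valuation (φ μ * (μ ^ p)⁻¹ - 1) < 1 := by
    have : φ μ * (μ ^ p)⁻¹ - 1 = (φ μ - μ ^ p) * (μ ^ p)⁻¹ := by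
      rw [sub_mul, mul_inv_cancel₀ hμp0]
    rw [this, map_mul, map_inv₀, map_pow, hvμ, one_pow, inv_one, mul_one]
    exact hcong
  have h1 := dspk_cyc_eq_one_of_valuation_lt A hn hnA hω hlt
  have := congrArg (· * μ ^ p) h1
  simpa [hμp0] using this

/-- An element of an inertia group at `p ∤ n` fixes the `n`-th roots of unity. -/
theorem dspk_cyc_inertia_root {p : ℕ} (hp : p.Prime) (hpn : ¬ p ∣ n)
    (A : ValuationSubring ds_Qb) (hA : A.LiesOverPrime p) {σ : ds_G}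
    (hσ : σ ∈ A.inertiaSubgroupIn ℚ) {μ : ds_Qb} (hμ : μ ^ n = 1) : σ μ = μ := by
  have hn : n ≠ 0 := NeZero.ne n
  have hvμ : A.valuation μ = 1 :=
    Fermat.Agent.S55.tl_valuation_eq_one_of_pow_eq_one A hn hμ
  have hμA : μ ∈ A := by rw [← ValuationSubring.valuation_le_one_iff, hvμ]
  have hμ0 : μ ≠ 0 := by
    intro h
    rw [h, zero_pow hn] at hμ
    exact zero_ne_one hμ
  obtain ⟨-, htriv⟩ := (Fermat.Agent.S55.tl_mem_inertiaSubgroupIn_iff A σ).1 hσ
  have hcong : A.valuation (σ μ - μ) < 1 :=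
    (ValuationSubring.mem_nonunits_iff (A := A)).1 (htriv μ hμA)
  have hnA : ¬ A.valuation ((n : ℕ) : ds_Qb) < 1 := dspk_cyc_not_lt A hp hA hpn
  have hω : (σ μ * μ⁻¹) ^ n = 1 := by
    rw [mul_pow, ← map_pow, hμ, map_one, one_mul, inv_pow, hμ, inv_one]
  have hlt : A.valuation (σ μ * μ⁻¹ - 1) < 1 := by
    have : σ μ * μ⁻¹ - 1 = (σ μ - μ) * μ⁻¹ := by
      rw [sub_mul, mul_inv_cancel₀ hμ0]
    rw [this, map_mul, map_inv₀, hvμ, inv_one, mul_one]
    exact hcong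
  have h1 := dspk_cyc_eq_one_of_valuation_lt A hn hnA hω hlt
  have := congrArg (· * μ) h1
  simpa [hμ0] using this

/-- `cyc(Frob_p) = p` for `p ∤ n`. -/
theorem dspk_cyc_frob {p : ℕ} (hp : p.Prime) (hpn : ¬ p ∣ n)
    (A : ValuationSubring ds_Qb) (hA : A.LiesOverPrime p) (φ : ds_G) (hφ : A.IsFrobeniusAt φ p) :
    ((dspk_cyc n φ : (ZMod n)ˣ) : ZMod n) = (p : ZMod n) :=
  dspk_cyc_eq_of n φ p fun _ hμ => dspk_cyc_frob_root n hp hpn A hA φ hφ hμ

/-- The cyclotomic character is trivial on the inertia groups at `p ∤ n`. -/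
theorem dspk_cyc_inertia {p : ℕ} (hp : p.Prime) (hpn : ¬ p ∣ n)
    (A : ValuationSubring ds_Qb) (hA : A.LiesOverPrime p) {σ : ds_G}
    (hσ : σ ∈ A.inertiaSubgroupIn ℚ) : dspk_cyc n σ = 1 :=
  dspk_cyc_eq_one_of n σ fun _ hμ => dspk_cyc_inertia_root n hp hpn A hA hσ hμ

/-! ### The determinant character of `ds_SeamTcoh` -/

/-- **The `ε`-input of `dspk_galois` for `ds_SeamTcoh`**: `ε = (ψ ∘ cyc_M) · (ι ∘ cyc_ℓ)` has
finite level, `ε(Frob_p) = ψ(p) p` and `ε = 1` on inertia, for every prime `p ∤ M`, `p ≠ ℓ`. -/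
theorem dspk_cyc_eps (M : ℕ) [NeZero M] (ℓ : ℕ) [Fact ℓ.Prime] (k : Type) [Field k] [CharP k ℓ]
    (ψ : (ZMod M)ˣ →* kˣ) :
    ∃ ε : ds_G →* kˣ, GaloisFactorsThroughFiniteLevel ε ∧
      ∀ (p : ℕ) [Fact p.Prime] (hpM : ¬ p ∣ M), p ≠ ℓ →
        ∀ A : ValuationSubring ds_Qb, A.LiesOverPrime p →
          (∀ φ : ds_G, A.IsFrobeniusAt φ p →
            ((ε φ : kˣ) : k) = ((ψ (g1t_pU hpM) : kˣ) : k) * (p : k)) ∧
          ∀ σ ∈ A.inertiaSubgroupIn ℚ, ε σ = 1 := by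
  haveI : NeZero ℓ := ⟨(Fact.out : ℓ.Prime).ne_zero⟩
  let ι : (ZMod ℓ)ˣ →* kˣ := Units.map ((ZMod.castHom (dvd_refl ℓ) k : ZMod ℓ →+* k) : ZMod ℓ →* k)
  let ε : ds_G →* kˣ := (ψ.comp (dspk_cyc M)) * (ι.comp (dspk_cyc ℓ))
  have hεapp : ∀ σ, ε σ = ψ (dspk_cyc M σ) * ι (dspk_cyc ℓ σ) := fun σ => rfl
  refine ⟨ε, ?_, ?_⟩
  · obtain ⟨L1, hL1, h1⟩ := dspk_cyc_finiteLevel M
    obtain ⟨L2, hL2, h2⟩ := dspk_cyc_finiteLevel ℓ
    refine ⟨L1 ⊔ L2, ?_, fun σ hσ => ?_⟩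
    · haveI := hL1
      haveI := hL2
      exact IntermediateField.finiteDimensional_sup L1 L2
    · rw [hεapp, h1 σ (fun x hx => hσ x ((le_sup_left : L1 ≤ L1 ⊔ L2) hx)),
        h2 σ (fun x hx => hσ x ((le_sup_right : L2 ≤ L1 ⊔ L2) hx)), map_one, map_one, one_mul]
  · intro p _ hpM hpℓ A hA
    have hp : p.Prime := Fact.out
    have hpℓ' : ¬ p ∣ ℓ := fun h =>
      hpℓ ((Nat.prime_dvd_prime_iff_eq hp (Fact.out : ℓ.Prime)).1 h)
    refine ⟨fun φ hφ => ?_, fun σ hσ => ?_⟩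
    · have h1 : dspk_cyc M φ = g1t_pU hpM := by
        apply Units.ext
        rw [dspk_cyc_frob M hp hpM A hA φ hφ, g1t_pU_coe]
      have h2 : ((ι (dspk_cyc ℓ φ) : kˣ) : k) = (p : k) := by
        show (ZMod.castHom (dvd_refl ℓ) k) ((dspk_cyc ℓ φ : (ZMod ℓ)ˣ) : ZMod ℓ) = (p : k)
        rw [dspk_cyc_frob ℓ hp hpℓ' A hA φ hφ, map_natCast]
      rw [hεapp, Units.val_mul, h1, h2]
    · rw [hεapp, dspk_cyc_inertia M hp hpM A hA hσ, dspk_cyc_inertia ℓ hp hpℓ' A hA hσ,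
        map_one, map_one, one_mul]

end Fermat.Agent.DS
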