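import Mathlib
import Fermat.Agent.JT3.Pack.Char

/-!
# Project DS / cell DS-T, leaf [PK]-mod-ℓ: the algebraic core (prefix `dspk_`)

`dspk_core`: `k` algebraically closed, `2 ≠ 0`; `ρ : G → End_k(W)` a finite-dimensional
representation, `ε : G → kˣ` a character, `E ≤ W` a nonzero `G`-stable subspace on which every `g`
satisfies a relation `ρ(g)² − t ρ(g) + ε(g) = 0`.  Then there is a SEMISIMPLE `r : G → GL₂(k)` with
`r g = 1` whenever `ρ g` is the identity on `E` and `ε g = 1`, and `tr r(g) = t`, `det r(g) = ε(g)` for EVERY `t`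
satisfying the relation of `g` on `E`.

(`r` = a simple subrepresentation `U ≤ E` if `dim U = 2`, and `ψ ⊕ ε ψ⁻¹` if `U = ψ` is a
character; `dim U ≤ 2` is helper9's `[QG]` lemma `pkc_field`.)
-/

set_option autoImplicit false
set_option linter.unusedSectionVars false
set_option linter.style.haveILetI false

noncomputable section

namespace Fermat.Agent.DS

open Module Polynomial Fermat.Agent.JT3

section Defs

variable {k : Type*} [Field k] {G : Type*} [Group G]

/-- semisimplicity of a two-dimensional matrix representation, stated by hand (for `G = Γℚ` this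
is `ds_Semisimple` verbatim). -/
def dspk_Semisimple (r : G →* GL (Fin 2) k) : Prop :=
  ∀ L : Submodule k (Fin 2 → k),
    (∀ σ : G, ∀ v ∈ L, ((r σ : GL (Fin 2) k) : Matrix (Fin 2) (Fin 2) k).mulVec v ∈ L) →
    ∃ L' : Submodule k (Fin 2 → k),
      (∀ σ : G, ∀ v ∈ L', ((r σ : GL (Fin 2) k) : Matrix (Fin 2) (Fin 2) k).mulVec v ∈ L') ∧
      IsCompl L L'

end Defs

section Axes

variable (k : Type*) [Field k]

theorem dspk_isCompl_axes :
    IsCompl (Submodule.span k {(Pi.single 0 1 : Fin 2 → k)})
      (Submodule.span k {(Pi.single 1 1 : Fin 2 → k)}) := by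
  constructor
  · rw [Submodule.disjoint_def]
    intro x hx hy
    obtain ⟨a, rfl⟩ := Submodule.mem_span_singleton.1 hx
    obtain ⟨b, hb⟩ := Submodule.mem_span_singleton.1 hy
    have h0 := congrFun hb 0
    simp at h0
    rw [← h0]
    simp
  · rw [Submodule.codisjoint_iff_exists_add_eq]
    intro z
    refine ⟨z 0 • Pi.single 0 1, z 1 • Pi.single 1 1,
      Submodule.smul_mem _ _ (Submodule.mem_span_singleton_self _),
      Submodule.smul_mem _ _ (Submodule.mem_span_singleton_self _), ?_⟩
    funext i
    fin_cases i <;> simp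

/-- the diagonal embedding `kˣ × kˣ → GL₂(k)`. -/
def dspk_diag : (Fin 2 → kˣ) →* GL (Fin 2) k :=
  (Units.map (Matrix.diagonalRingHom (Fin 2) k).toMonoidHom).comp
    (MulEquiv.piUnits (ι := Fin 2) (M := fun _ => k)).symm.toMonoidHom

theorem dspk_diag_coe (f : Fin 2 → kˣ) :
    ((dspk_diag k f : GL (Fin 2) k) : Matrix (Fin 2) (Fin 2) k) =
      Matrix.diagonal (fun i => (f i : k)) := rfl

variable {k}

/-- a representation by diagonal matrices is semisimple. -/
theorem dspk_semisimple_diag {G : Type*} [Group G] (d : G →* (Fin 2 → kˣ)) :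
    dspk_Semisimple ((dspk_diag k).comp d) := by
  intro L hL
  have hmul : ∀ (σ : G) (v : Fin 2 → k),
      (((dspk_diag k).comp d σ : GL (Fin 2) k) : Matrix (Fin 2) (Fin 2) k).mulVec v
        = fun i => (d σ i : k) * v i := by
    intro σ v
    funext i
    rw [MonoidHom.comp_apply, dspk_diag_coe, Matrix.mulVec_diagonal]
  by_cases hsc : ∀ σ : G, (d σ 0 : k) = (d σ 1 : k)
  · -- scalar matrices: every subspace is invariant
    obtain ⟨L', hL'⟩ := Submodule.exists_isCompl L
    refine ⟨L', fun σ v hv => ?_, hL'⟩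
    rw [hmul]
    have : (fun i => (d σ i : k) * v i) = (d σ 0 : k) • v := by
      funext i
      fin_cases i
      · simp
      · simp [hsc σ]
    rw [this]
    exact Submodule.smul_mem _ _ hv
  · rw [not_forall] at hsc
    obtain ⟨σ₀, hσ₀⟩ := hsc
    -- `L` contains the components of its vectors
    have hcomp0 : ∀ v ∈ L, v 0 • (Pi.single 0 1 : Fin 2 → k) ∈ L := by
      intro v hv
      have h1 := hL σ₀ v hv
      rw [hmul] at h1
      have h2 : (fun i => (d σ₀ i : k) * v i) - (d σ₀ 1 : k) • v ∈ L :=
        Submodule.sub_mem _ h1 (Submodule.smul_mem _ _ hv)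
      have h3 : (fun i => (d σ₀ i : k) * v i) - (d σ₀ 1 : k) • v
          = ((d σ₀ 0 : k) - (d σ₀ 1 : k)) • (v 0 • (Pi.single 0 1 : Fin 2 → k)) := by
        funext i
        fin_cases i
        · simp; ring
        · simp
      rw [h3] at h2
      have hne : (d σ₀ 0 : k) - (d σ₀ 1 : k) ≠ 0 := sub_ne_zero.2 hσ₀
      have := Submodule.smul_mem L ((d σ₀ 0 : k) - (d σ₀ 1 : k))⁻¹ h2
      rwa [smul_smul, inv_mul_cancel₀ hne, one_smul] at this
    have hcomp1 : ∀ v ∈ L, v 1 • (Pi.single 1 1 : Fin 2 → k) ∈ L := by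
      intro v hv
      have h0 := hcomp0 v hv
      have : v 1 • (Pi.single 1 1 : Fin 2 → k) = v - v 0 • (Pi.single 0 1 : Fin 2 → k) := by
        funext i
        fin_cases i <;> simp
      rw [this]
      exact Submodule.sub_mem _ hv h0
    have hinv0 : ∀ σ : G, ∀ v ∈ Submodule.span k {(Pi.single 0 1 : Fin 2 → k)},
        (((dspk_diag k).comp d σ : GL (Fin 2) k) : Matrix (Fin 2) (Fin 2) k).mulVec v ∈
          Submodule.span k {(Pi.single 0 1 : Fin 2 → k)} := by
      intro σ v hv
      obtain ⟨a, rfl⟩ := Submodule.mem_span_singleton.1 hv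
      rw [hmul]
      have : (fun i => (d σ i : k) * (a • (Pi.single 0 1 : Fin 2 → k)) i)
          = ((d σ 0 : k) * a) • (Pi.single 0 1 : Fin 2 → k) := by
        funext i
        fin_cases i <;> simp
      rw [this]
      exact Submodule.smul_mem _ _ (Submodule.mem_span_singleton_self _)
    have hinv1 : ∀ σ : G, ∀ v ∈ Submodule.span k {(Pi.single 1 1 : Fin 2 → k)},
        (((dspk_diag k).comp d σ : GL (Fin 2) k) : Matrix (Fin 2) (Fin 2) k).mulVec v ∈
          Submodule.span k {(Pi.single 1 1 : Fin 2 → k)} := by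
      intro σ v hv
      obtain ⟨a, rfl⟩ := Submodule.mem_span_singleton.1 hv
      rw [hmul]
      have : (fun i => (d σ i : k) * (a • (Pi.single 1 1 : Fin 2 → k)) i)
          = ((d σ 1 : k) * a) • (Pi.single 1 1 : Fin 2 → k) := by
        funext i
        fin_cases i <;> simp
      rw [this]
      exact Submodule.smul_mem _ _ (Submodule.mem_span_singleton_self _)
    have hdecomp : ∀ v : Fin 2 → k,
        v = v 0 • (Pi.single 0 1 : Fin 2 → k) + v 1 • (Pi.single 1 1 : Fin 2 → k) := by
      intro v
      funext i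
      fin_cases i <;> simp
    by_cases he0 : (Pi.single 0 1 : Fin 2 → k) ∈ L
    · by_cases he1 : (Pi.single 1 1 : Fin 2 → k) ∈ L
      · -- `L = ⊤`
        have hLtop : L = ⊤ := by
          rw [eq_top_iff]
          intro v _
          rw [hdecomp v]
          exact Submodule.add_mem _ (Submodule.smul_mem _ _ he0) (Submodule.smul_mem _ _ he1)
        refine ⟨⊥, fun σ v hv => ?_, hLtop ▸ isCompl_top_bot⟩
        rw [Submodule.mem_bot] at hv
        rw [hv, Matrix.mulVec_zero]
        exact Submodule.zero_mem _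
      · -- `L = k e₀`
        have hL0 : L = Submodule.span k {(Pi.single 0 1 : Fin 2 → k)} := by
          apply le_antisymm
          · intro v hv
            have hv1 : v 1 = 0 := by
              by_contra hne
              apply he1
              have := Submodule.smul_mem L (v 1)⁻¹ (hcomp1 v hv)
              rwa [smul_smul, inv_mul_cancel₀ hne, one_smul] at this
            rw [hdecomp v, hv1, zero_smul, add_zero]
            exact Submodule.smul_mem _ _ (Submodule.mem_span_singleton_self _)
          · rw [Submodule.span_singleton_le_iff_mem]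
            exact he0
        exact ⟨_, hinv1, hL0 ▸ dspk_isCompl_axes k⟩
    · by_cases he1 : (Pi.single 1 1 : Fin 2 → k) ∈ L
      · -- `L = k e₁`
        have hL1 : L = Submodule.span k {(Pi.single 1 1 : Fin 2 → k)} := by
          apply le_antisymm
          · intro v hv
            have hv0 : v 0 = 0 := by
              by_contra hne
              apply he0
              have := Submodule.smul_mem L (v 0)⁻¹ (hcomp0 v hv)
              rwa [smul_smul, inv_mul_cancel₀ hne, one_smul] at this
            rw [hdecomp v, hv0, zero_smul, zero_add]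
            exact Submodule.smul_mem _ _ (Submodule.mem_span_singleton_self _)
          · rw [Submodule.span_singleton_le_iff_mem]
            exact he1
        exact ⟨_, hinv0, hL1 ▸ (dspk_isCompl_axes k).symm⟩
      · -- `L = ⊥`
        have hLbot : L = ⊥ := by
          rw [eq_bot_iff]
          intro v hv
          have hv0 : v 0 = 0 := by
            by_contra hne
            apply he0
            have := Submodule.smul_mem L (v 0)⁻¹ (hcomp0 v hv)
            rwa [smul_smul, inv_mul_cancel₀ hne, one_smul] at this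
          have hv1 : v 1 = 0 := by
            by_contra hne
            apply he1
            have := Submodule.smul_mem L (v 1)⁻¹ (hcomp1 v hv)
            rwa [smul_smul, inv_mul_cancel₀ hne, one_smul] at this
          rw [Submodule.mem_bot, hdecomp v, hv0, hv1, zero_smul, zero_smul, add_zero]
        exact ⟨⊤, fun σ v _ => Submodule.mem_top, hLbot ▸ isCompl_bot_top⟩

end Axes

section Simple

variable {k : Type*} [Field k] {G : Type*} [Group G]
  {W : Type*} [AddCommGroup W] [Module k W] [FiniteDimensional k W]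

/-- a nonzero stable subspace of a finite-dimensional representation contains a simple one. -/
theorem dspk_exists_simple (ρ : G →* Module.End k W) (E : Submodule k W) (hE : E ≠ ⊥)
    (hst : ∀ g, E ≤ E.comap (ρ g)) :
    ∃ U : Submodule k W, U ≤ E ∧ U ≠ ⊥ ∧ (∀ g, U ≤ U.comap (ρ g)) ∧
      ∀ U' : Submodule k W, U' ≤ U → (∀ g, U' ≤ U'.comap (ρ g)) → U' = ⊥ ∨ U' = U := by
  classical
  let P : ℕ → Prop := fun n => ∃ U : Submodule k W, U ≤ E ∧ U ≠ ⊥ ∧
    (∀ g, U ≤ U.comap (ρ g)) ∧ finrank k U = n
  have hP : ∃ n, P n := ⟨finrank k E, E, le_rfl, hE, hst, rfl⟩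
  obtain ⟨U, hUE, hU0, hUst, hUn⟩ := Nat.find_spec hP
  refine ⟨U, hUE, hU0, hUst, fun U' hU'U hU'st => ?_⟩
  by_cases h0 : U' = ⊥
  · exact Or.inl h0
  · right
    have h1 : Nat.find hP ≤ finrank k U' :=
      Nat.find_min' hP ⟨U', hU'U.trans hUE, h0, hU'st, rfl⟩
    have h2 : finrank k U' ≤ finrank k U := Submodule.finrank_mono hU'U
    exact Submodule.eq_of_le_of_finrank_eq hU'U (le_antisymm h2 (hUn ▸ h1))

/-- the restriction of a representation to a stable subspace. -/
def dspk_restrict (ρ : G →* Module.End k W) (U : Submodule k W)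
    (hU : ∀ g, U ≤ U.comap (ρ g)) : G →* Module.End k U where
  toFun g := (ρ g).restrict (hU g)
  map_one' := by
    ext u
    simp
  map_mul' g h := by
    ext u
    simp [LinearMap.restrict_apply]

@[simp] theorem dspk_restrict_apply (ρ : G →* Module.End k W) (U : Submodule k W)
    (hU : ∀ g, U ≤ U.comap (ρ g)) (g : G) (u : U) :
    ((dspk_restrict ρ U hU g u : U) : W) = ρ g (u : W) := rfl

end Simple

section Core

variable {k : Type*} [Field k] [IsAlgClosed k] {G : Type*} [Group G]
  {W : Type*} [AddCommGroup W] [Module k W] [FiniteDimensional k W]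

/-- **[PK]-mod-ℓ, algebraic core.** -/
theorem dspk_core (h2 : (2 : k) ≠ 0) (ρ : G →* Module.End k W) (ε : G →* kˣ)
    (E : Submodule k W) (hE : E ≠ ⊥) (hst : ∀ g, E ≤ E.comap (ρ g))
    (hrel : ∀ g, ∃ t : k, ∀ v ∈ E, ρ g (ρ g v) - t • ρ g v + (ε g : k) • v = 0) :
    ∃ r : G →* GL (Fin 2) k,
      (∀ g, (∀ v ∈ E, ρ g v = v) → ε g = 1 → r g = 1) ∧ dspk_Semisimple r ∧
      ∀ (g : G) (t : k), (∀ v ∈ E, ρ g (ρ g v) - t • ρ g v + (ε g : k) • v = 0) →
        ((r g : GL (Fin 2) k) : Matrix (Fin 2) (Fin 2) k).trace = t ∧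
        ((r g : GL (Fin 2) k) : Matrix (Fin 2) (Fin 2) k).det = (ε g : k) := by
  classical
  obtain ⟨U, hUE, hU0, hUst, hUmin⟩ := dspk_exists_simple ρ E hE hst
  set ρU : G →* Module.End k U := dspk_restrict ρ U hUst with hρU
  haveI : Nontrivial U := Submodule.nontrivial_iff_ne_bot.2 hU0
  -- irreducibility of `U`
  have hirr : ∀ W' : Submodule k U, (∀ g, W' ≤ W'.comap (ρU g)) → W' = ⊥ ∨ W' = ⊤ := by
    intro W' hW'
    have h1 := hUmin (W'.map U.subtype) (Submodule.map_subtype_le U W') (by
      intro g w hw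
      obtain ⟨u, hu, rfl⟩ := hw
      exact ⟨ρU g u, hW' g hu, rfl⟩)
    rcases h1 with h1 | h1
    · left
      rw [eq_bot_iff]
      intro u hu
      have : (U.subtype u) ∈ W'.map U.subtype := ⟨u, hu, rfl⟩
      rw [h1, Submodule.mem_bot] at this
      rw [Submodule.mem_bot]
      exact Subtype.ext this
    · right
      rw [eq_top_iff]
      intro u _
      have : (u : W) ∈ W'.map U.subtype := by rw [h1]; exact u.2
      obtain ⟨u', hu', hu'u⟩ := this
      have : u' = u := Subtype.ext hu'u
      rwa [← this]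
  -- the relations on `U`
  have hrelU : ∀ (g : G) (t : k), (∀ v ∈ E, ρ g (ρ g v) - t • ρ g v + (ε g : k) • v = 0) →
      ρU g * ρU g - t • ρU g + (ε g : k) • (1 : Module.End k U) = 0 := by
    intro g t h
    ext u
    have := h (u : W) (hUE u.2)
    simpa [hρU] using this
  choose t₀ ht₀ using hrel
  have ht₀U : ∀ g, ρU g * ρU g - t₀ g • ρU g + (ε g : k) • (1 : Module.End k U) = 0 :=
    fun g => hrelU g (t₀ g) (ht₀ g)
  have huniq : ∀ (g : G) (t : k),
      (∀ v ∈ E, ρ g (ρ g v) - t • ρ g v + (ε g : k) • v = 0) → t = t₀ g :=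
    fun g t h => pkc_trace_unique ρU g (hrelU g t h) (ht₀U g)
  have hle : finrank k U ≤ 2 := qg_finrank_le_two h2 hirr ht₀U
  have hpos : 0 < finrank k U := finrank_pos
  have hone : ∀ g, (∀ v ∈ E, ρ g v = v) → ρU g = 1 := by
    intro g hg
    ext u
    simp [hρU, hg (u : W) (hUE u.2)]
  rcases (by omega : finrank k U = 1 ∨ finrank k U = 2) with hd | hd
  · -- `U` is a character `ψ`: `r = ψ ⊕ ε ψ⁻¹`
    obtain ⟨ψ, hψ, hψt⟩ := qg_dim_one hd ht₀U
    let d : G →* (Fin 2 → kˣ) := MonoidHom.pi (fun i => if i = 0 then ψ else ε * ψ⁻¹)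
    have hd0 : ∀ g, d g 0 = ψ g := fun g => rfl
    have hd1 : ∀ g, d g 1 = ε g * (ψ g)⁻¹ := fun g => rfl
    refine ⟨(dspk_diag k).comp d, ?_, dspk_semisimple_diag d, ?_⟩
    · intro g hg hεg
      have hψ1 : ψ g = 1 := by
        obtain ⟨u, hu⟩ := exists_ne (0 : U)
        have h1 := hψ g u
        rw [hone g hg, Module.End.one_apply] at h1
        have h3 : ((1 : k) - (ψ g : k)) • u = 0 := by rw [sub_smul, one_smul, ← h1, sub_self]
        rcases smul_eq_zero.1 h3 with h4 | h4
        · exact Units.ext (sub_eq_zero.1 h4).symm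
        · exact absurd h4 hu
      have hdg : d g = 1 := by
        funext i
        fin_cases i
        · exact hψ1
        · show ε g * (ψ g)⁻¹ = 1
          rw [hεg, hψ1, inv_one, mul_one]
      rw [MonoidHom.comp_apply, hdg, map_one]
    · intro g t h
      rw [MonoidHom.comp_apply, dspk_diag_coe, Matrix.trace_fin_two, Matrix.det_fin_two]
      simp only [Matrix.diagonal_apply_eq, Matrix.diagonal_apply_ne, ne_eq, zero_ne_one,
        one_ne_zero, not_false_eq_true, mul_zero, sub_zero, Fin.isValue]
      rw [hd0, hd1, huniq g t h, ← hψt g]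
      have hne : (ψ g : k) ≠ 0 := (ψ g).ne_zero
      constructor
      · rw [Units.val_mul, Units.val_inv_eq_inv_val, div_eq_mul_inv]
      · rw [Units.val_mul, Units.val_inv_eq_inv_val]
        field_simp
  · -- `U` is two-dimensional: `r = ρ|U` in a basis
    let b := finBasisOfFinrankEq k U hd
    let r : G →* GL (Fin 2) k :=
      (Units.map (MonoidHomClass.toMonoidHom (LinearMap.toMatrixAlgEquiv b))).comp ρU.toHomUnits
    have hr : ∀ g, ((r g : GL (Fin 2) k) : Matrix (Fin 2) (Fin 2) k) =
        LinearMap.toMatrix b b (ρU g) := fun g => rfl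
    refine ⟨r, ?_, ?_, ?_⟩
    · intro g hg _
      apply Units.ext
      rw [hr, hone g hg]
      exact LinearMap.toMatrix_one b
    · intro L hL
      -- transport `L` to `U`
      have hinvU : ∀ g, (L.comap (b.equivFun : U →ₗ[k] (Fin 2 → k))) ≤
          (L.comap (b.equivFun : U →ₗ[k] (Fin 2 → k))).comap (ρU g) := by
        intro g u hu
        rw [Submodule.mem_comap] at hu ⊢
        rw [Submodule.mem_comap]
        have h1 := hL g _ hu
        rw [hr] at h1
        have h2 := LinearMap.toMatrix_mulVec_repr b b (ρU g) u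
        have h3 : (b.equivFun : U →ₗ[k] (Fin 2 → k)) u = ⇑(b.repr u) := rfl
        have h4 : (b.equivFun : U →ₗ[k] (Fin 2 → k)) (ρU g u) = ⇑(b.repr (ρU g u)) := rfl
        rw [h4, ← h2, ← h3]
        exact h1
      have hLmap : ∀ v : Fin 2 → k, v ∈ L ↔
          b.equivFun.symm v ∈ L.comap (b.equivFun : U →ₗ[k] (Fin 2 → k)) := by
        intro v
        rw [Submodule.mem_comap]
        have : (b.equivFun : U →ₗ[k] (Fin 2 → k)) (b.equivFun.symm v) = v :=
          b.equivFun.apply_symm_apply v
        rw [this]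
      rcases hirr _ hinvU with h0 | h0
      · have hLbot : L = ⊥ := by
          rw [eq_bot_iff]
          intro v hv
          have := (hLmap v).1 hv
          rw [h0, Submodule.mem_bot] at this
          rw [Submodule.mem_bot]
          have h5 := congrArg b.equivFun this
          rwa [b.equivFun.apply_symm_apply, map_zero] at h5
        exact ⟨⊤, fun σ v _ => Submodule.mem_top, hLbot ▸ isCompl_bot_top⟩
      · have hLtop : L = ⊤ := by
          rw [eq_top_iff]
          intro v _
          rw [hLmap v, h0]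
          exact Submodule.mem_top
        refine ⟨⊥, fun σ v hv => ?_, hLtop ▸ isCompl_top_bot⟩
        rw [Submodule.mem_bot] at hv
        rw [hv, Matrix.mulVec_zero]
        exact Submodule.zero_mem _
    · intro g t h
      obtain ⟨h1, h3⟩ := qg_trace_det h2 hirr ht₀U hd g
      rw [hr, ← LinearMap.trace_eq_matrix_trace k b (ρU g), LinearMap.det_toMatrix b (ρU g), h1,
        h3, huniq g t h]
      exact ⟨rfl, rfl⟩

end Core

end Fermat.Agent.DS
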