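import Mathlib
import Fermat.Agent.DS.Defs
import Fermat.Agent.DS.Pack.Core
import Fermat.Agent.JT3.Algebra.GoodClosureFinal

/-!
# Project DS / cell DS-T, leaf [PK]-mod-ℓ: the Galois form (prefix `dspk_`)

`dspk_galois`: `k` an algebraically closed field with `2 ≠ 0`, `ρ : Γℚ → End_k(W)` a
finite-dimensional representation of finite level, `ε : Γℚ → kˣ` a character of finite level,
`E ≤ W` a nonzero stable subspace (the Hecke eigenspace), `S` a finite set of primes such that for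
`p ∉ S` the inertia groups at `p` act trivially on `E` and `ε`, and every Frobenius element `φ` at
`p` satisfies `ε φ = e p` and `ρ(φ)² − t_p ρ(φ) + e_p = 0` on `E` (Eichler–Shimura).
THEN there is a semisimple `r : Γℚ → GL₂(k)` of finite level with
`ds_UnramFrob r p (t p) (e p)` for every prime `p ∉ S`.

Proof: `[CL]` (`gcl_good_final` at the complete local ring `O := k`, with weak Chebotarev inside)
gives a relation `ρ(σ)² − t ρ(σ) + ε(σ) = 0` on `E` for EVERY `σ`; then `dspk_core`.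
-/

set_option autoImplicit false
set_option linter.unusedSectionVars false
set_option linter.style.haveILetI false

noncomputable section

namespace Fermat.Agent.DS

open Module Polynomial IsLocalRing Fermat.Agent.JT3

/-- **[PK]-mod-ℓ, Galois form.** -/
theorem dspk_galois {k : Type} [Field k] [IsAlgClosed k] (h2 : (2 : k) ≠ 0)
    {W : Type} [AddCommGroup W] [Module k W] [FiniteDimensional k W]
    (ρ : ds_G →* Module.End k W) (hρ : GaloisFactorsThroughFiniteLevel ρ)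
    (ε : ds_G →* kˣ) (hε : GaloisFactorsThroughFiniteLevel ε)
    (E : Submodule k W) (hE : E ≠ ⊥) (hst : ∀ g, E ≤ E.comap (ρ g))
    (S : Finset ℕ) (t e : ℕ → k)
    (hfrob : ∀ p : ℕ, p.Prime → p ∉ S → ∀ A : ValuationSubring ds_Qb, A.LiesOverPrime p →
      ∀ φ : ds_G, A.IsFrobeniusAt φ p →
        (ε φ : k) = e p ∧ ∀ v ∈ E, ρ φ (ρ φ v) - t p • ρ φ v + e p • v = 0)
    (hunr : ∀ p : ℕ, p.Prime → p ∉ S → ∀ A : ValuationSubring ds_Qb, A.LiesOverPrime p →
      ∀ σ ∈ A.inertiaSubgroupIn ℚ, (∀ v ∈ E, ρ σ v = v) ∧ ε σ = 1) :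
    ∃ r : ds_G →* GL (Fin 2) k, GaloisFactorsThroughFiniteLevel r ∧ ds_Semisimple r ∧
      ∀ p : ℕ, p.Prime → p ∉ S → ds_UnramFrob r p (t p) (e p) := by
  classical
  haveI : IsAdicComplete (maximalIdeal k) k := by
    rw [IsLocalRing.maximalIdeal_eq_bot]
    infer_instance
  -- the relation for every `σ`, by [CL] on `T := E` over `O := k`
  let ρE : ds_G →* Module.End k E := dspk_restrict ρ E hst
  let ε' : ds_G →* k := (Units.coeHom k).comp ε
  have hρE : GaloisActionIsAdicContinuous k ρE := by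
    intro n
    obtain ⟨L, hL, hLρ⟩ := hρ
    refine ⟨L, hL, fun σ hσ v => ?_⟩
    have : ρE σ v - v = 0 := by
      apply Subtype.ext
      show ρ σ (v : W) - (v : W) = 0
      rw [hLρ σ hσ, Module.End.one_apply, sub_self]
    rw [this]
    exact Submodule.zero_mem _
  have hε' : ∀ n : ℕ, ∃ L : IntermediateField ℚ (AlgebraicClosure ℚ), FiniteDimensional ℚ L ∧
      ∀ σ : ds_G, (∀ x ∈ L, σ x = x) → ε' σ - 1 ∈ maximalIdeal k ^ n := by
    intro n
    obtain ⟨L, hL, hLε⟩ := hε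
    refine ⟨L, hL, fun σ hσ => ?_⟩
    have : ε' σ - 1 = 0 := by
      show ((ε σ : kˣ) : k) - 1 = 0
      rw [hLε σ hσ, Units.val_one, sub_self]
    rw [this]
    exact Ideal.zero_mem _
  have hrelE : ∀ σ : ds_G, ∃ t' : k,
      ρE σ * ρE σ - t' • ρE σ + ε' σ • (1 : Module.End k E) = 0 := by
    intro σ
    refine gcl_good_final ρE hρE ε' hε' S (fun p hp hpS A hA φ hφ => ?_) σ
    obtain ⟨h1, h3⟩ := hfrob p hp hpS A hA φ hφ
    refine ⟨t p, ?_⟩
    ext v
    have := h3 (v : W) v.2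
    show ρ φ (ρ φ (v : W)) - t p • ρ φ (v : W) + ((ε φ : kˣ) : k) • (v : W) = 0
    rw [h1]
    exact this
  have hrel : ∀ g : ds_G, ∃ t' : k,
      ∀ v ∈ E, ρ g (ρ g v) - t' • ρ g v + (ε g : k) • v = 0 := by
    intro g
    obtain ⟨t', ht'⟩ := hrelE g
    refine ⟨t', fun v hv => ?_⟩
    have := congrArg (fun F : Module.End k E => ((F ⟨v, hv⟩ : E) : W)) ht'
    exact this
  obtain ⟨r, hr1, hr2, hr3⟩ := dspk_core h2 ρ ε E hE hst hrel
  refine ⟨r, ?_, hr2, ?_⟩
  · obtain ⟨L1, hL1, hLρ⟩ := hρ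
    obtain ⟨L2, hL2, hLε⟩ := hε
    haveI := hL1
    haveI := hL2
    refine ⟨L1 ⊔ L2, inferInstance, fun σ hσ => ?_⟩
    refine hr1 σ (fun v _ => ?_) (hLε σ fun x hx => hσ x ((le_sup_right : L2 ≤ L1 ⊔ L2) hx))
    rw [hLρ σ fun x hx => hσ x ((le_sup_left : L1 ≤ L1 ⊔ L2) hx), Module.End.one_apply]
  · intro p hp hpS A hA
    refine ⟨fun σ hσ => ?_, fun φ hφ => ?_⟩
    · obtain ⟨h1, h3⟩ := hunr p hp hpS A hA σ hσ
      exact hr1 σ h1 h3
    · obtain ⟨h1, h3⟩ := hfrob p hp hpS A hA φ hφ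
      have := hr3 φ (t p) (by rw [h1]; exact h3)
      rw [h1] at this
      exact this

end Fermat.Agent.DS
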